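import Fermat.Agent.LT.A2.H254.RecSplitSpec

/-!
# Row LT, tower A2, leaf A2.03.8.5.2 `H254.PlusC254` (helper333)

OFF-MAIN.  Proves `H254.PlusC254` VERBATIM against `LT/A2/H254/RecSplitSpec.lean`
(helper254@51dfc4e4e, sha256 947dfa59): outside `GL₂(𝔸_K)⁺` all `ω_j` vanish.

If `(d_j g', M)` is admissible, `d_j = diag(ϖ^j, 1)_v`, then `((μ^j)⁻¹ M)` is a partner of `g'`,
where `μ ∈ T(𝔸_K)` has `det μ = det diag(ϖ, 1)_v` (`IsSplitAt142` gives `m₁`, `good_norm` corrects
the determinant by a unit); the torus is closed under products and inverses (`torMat` algebra).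
-/

set_option autoImplicit false

open IsDedekindDomain NumberField AutomorphicForm MeasureTheory
open scoped MatrixGroups

noncomputable section

namespace Fermat.Agent.LT.A2.H333

open Fermat.Agent.LT.H556 Fermat.Agent.LT.H556.A0 Fermat.Agent.LT.H129
open Fermat.Agent.LT.A2.H142 Fermat.Agent.LT.A2.H254

variable {K : Type} [Field K] [NumberField K]

/-! ## The torus is a group -/

theorem torMat_mul333 {R : Type*} [CommRing R] (t n a b a' b' : R) :
    torMat t n a b * torMat t n a' b'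
      = torMat t n (a * a' - n * (b * b')) (a * b' + a' * b + t * (b * b')) := by
  unfold torMat
  rw [Matrix.mul_fin_two]
  ext i j
  fin_cases i <;> fin_cases j <;> simp <;> ring

theorem torMat_one333 {R : Type*} [CommRing R] (t n : R) : torMat t n 1 0 = 1 := by
  unfold torMat
  simp [Matrix.one_fin_two]

theorem inTorus_one333 (t n : K) : InTorus t n (1 : G K) :=
  ⟨1, 0, by rw [torMat_one333]; rfl⟩

theorem inTorus_mul333 {t n : K} {m m' : G K} (h : InTorus t n m) (h' : InTorus t n m') :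
    InTorus t n (m * m') := by
  obtain ⟨a, b, hab⟩ := h
  obtain ⟨a', b', hab'⟩ := h'
  refine ⟨a * a' - algebraMap K (Adl K) n * (b * b'),
    a * b' + a' * b + algebraMap K (Adl K) t * (b * b'), ?_⟩
  rw [Units.val_mul, hab, hab', torMat_mul333]

theorem inTorus_pow333 {t n : K} {m : G K} (h : InTorus t n m) (j : ℕ) :
    InTorus t n (m ^ j) := by
  induction j with
  | zero => rw [pow_zero]; exact inTorus_one333 t n
  | succ j ih => rw [pow_succ]; exact inTorus_mul333 ih h

theorem inTorus_inv333 {t n : K} {m : G K} (h : InTorus t n m) : InTorus t n m⁻¹ := by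
  obtain ⟨a, b, hab⟩ := h
  have hδ : ((Matrix.GeneralLinearGroup.det m : (Adl K)ˣ) : Adl K)
      = a * (a + algebraMap K (Adl K) t * b) + algebraMap K (Adl K) n * b * b := by
    rw [Matrix.GeneralLinearGroup.val_det_apply, hab, torMat, Matrix.det_fin_two_of]
    ring
  set c : Adl K := (((Matrix.GeneralLinearGroup.det m)⁻¹ : (Adl K)ˣ) : Adl K) with hc
  have hcδ : c * (a * (a + algebraMap K (Adl K) t * b) + algebraMap K (Adl K) n * b * b) = 1 := by
    rw [← hδ, hc, Units.inv_mul]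
  have key : (m : Matrix (Fin 2) (Fin 2) (Adl K))
      * torMat (algebraMap K (Adl K) t) (algebraMap K (Adl K) n)
          (c * (a + algebraMap K (Adl K) t * b)) (c * -b) = 1 := by
    rw [hab, torMat_mul333, ← torMat_one333 (algebraMap K (Adl K) t) (algebraMap K (Adl K) n)]
    congr 1
    · rw [← hcδ]; ring
    · ring
  refine ⟨c * (a + algebraMap K (Adl K) t * b), c * -b, ?_⟩
  calc ((m⁻¹ : G K) : Matrix (Fin 2) (Fin 2) (Adl K))
      = ((m⁻¹ : G K) : Matrix (Fin 2) (Fin 2) (Adl K))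
          * ((m : Matrix (Fin 2) (Fin 2) (Adl K))
            * torMat (algebraMap K (Adl K) t) (algebraMap K (Adl K) n)
              (c * (a + algebraMap K (Adl K) t * b)) (c * -b)) := by rw [key, mul_one]
    _ = torMat (algebraMap K (Adl K) t) (algebraMap K (Adl K) n)
              (c * (a + algebraMap K (Adl K) t * b)) (c * -b) := by
        rw [← mul_assoc, ← Units.val_mul, inv_mul_cancel, Units.val_one, one_mul]

/-! ## Components of determinants -/

theorem det_finComp333 (v : HeightOneSpectrum (𝓞 K)) (g : G K) :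
    ((Matrix.GeneralLinearGroup.det g : (Adl K)ˣ) : Adl K).2 v = (finComp v g).det := by
  rw [← evF129_apply, Matrix.GeneralLinearGroup.val_det_apply, RingHom.map_det]
  rfl

theorem det_infComp333 (w : InfinitePlace K) (g : G K) :
    ((Matrix.GeneralLinearGroup.det g : (Adl K)ˣ) : Adl K).1 w
      = ((g : Matrix (Fin 2) (Fin 2) (Adl K)).map (evI129 w)).det := by
  rw [← evI129_apply, Matrix.GeneralLinearGroup.val_det_apply, RingHom.map_det]
  rfl

theorem isIdeleAt_det333 {v : HeightOneSpectrum (𝓞 K)} {g : G K} (hg : IsLocalAtFin v g) :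
    IsIdeleAt v (Matrix.GeneralLinearGroup.det g) := by
  refine ⟨fun w => ?_, fun v' hv' => ?_⟩
  · rw [det_infComp333]
    have h1 := (trivAtInf_iff129 w g).mp (hg.1 w)
    rw [← coe_infCompHom129_map, h1]
    exact Matrix.det_one
  · rw [det_finComp333]
    have h1 : finComp v' g = 1 := hg.2 v' hv'
    rw [h1]
    exact Matrix.det_one

/-! ## Powers of the diagonal element -/

theorem diag129_mul333 {F : Type*} [Field F] (x y x' y' : F) (hx : x ≠ 0) (hy : y ≠ 0)
    (hx' : x' ≠ 0) (hy' : y' ≠ 0) :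
    diag129 x y hx hy * diag129 x' y' hx' hy'
      = diag129 (x * x') (y * y') (mul_ne_zero hx hx') (mul_ne_zero hy hy') := by
  apply Units.ext
  rw [Units.val_mul]
  unfold diag129
  rw [coe_mkGL129, coe_mkGL129, coe_mkGL129, Matrix.mul_fin_two]
  simp

theorem dgl142_zero333 (v : HeightOneSpectrum (𝓞 K)) (ϖ : v.adicCompletion K) (h : ϖ ≠ 0) :
    dgl142 v ϖ h 0 = 1 := by
  apply Units.ext
  unfold dgl142 diag129
  rw [coe_mkGL129]
  simp [Matrix.one_fin_two]

theorem dgl142_succ333 (v : HeightOneSpectrum (𝓞 K)) (ϖ : v.adicCompletion K) (h : ϖ ≠ 0)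
    (j : ℕ) : dgl142 v ϖ h (j + 1) = dgl142 v ϖ h j * diag129 ϖ 1 h one_ne_zero := by
  unfold dgl142
  rw [diag129_mul333]
  apply Units.ext
  unfold diag129
  rw [coe_mkGL129, coe_mkGL129]
  simp [pow_succ]

/-! ## The element `μ` -/

/-- At a split place `v ∤ π.level` there is `μ ∈ T(𝔸_K)` with `det μ = det diag(ϖ, 1)_v`. -/
theorem exists_torus_det333 (D : KData K) (η : (Adl K)ˣ → ℂ) (W : G K → ℂ)
    (v : HeightOneSpectrum (𝓞 K)) (hctx : HCtx D η W v) (hs : IsSplitAt142 D.t D.n v)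
    (ϖ : v.adicCompletion K) (hϖ : Valued.v ϖ = WithZero.exp (-1 : ℤ)) :
    ∃ μ : G K, InTorus D.t D.n μ ∧
      Matrix.GeneralLinearGroup.det μ
        = Matrix.GeneralLinearGroup.det
            (locFin129 v (diag129 ϖ 1 (unif_ne_zero129 v hϖ) one_ne_zero)) := by
  obtain ⟨m₁, htor, hloc, -, hval⟩ := hs
  have hd₁loc : IsLocalAtFin v
      (locFin129 v (diag129 ϖ 1 (unif_ne_zero129 v hϖ) one_ne_zero)) :=
    isLocalAtFin_locFin129 v _
  generalize hd₁ : locFin129 v (diag129 ϖ 1 (unif_ne_zero129 v hϖ) one_ne_zero) = d₁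
    at hd₁loc ⊢
  have hdetd : (finComp v d₁).det = ϖ := by
    rw [← hd₁, finComp_locFin129]
    unfold diag129
    rw [coe_mkGL129, Matrix.det_fin_two_of]
    simp
  have hu : IsUnitIdeleAt v (Matrix.GeneralLinearGroup.det (d₁ * m₁⁻¹)) := by
    refine ⟨isIdeleAt_det333 (isLocalAtFin_mul129 hd₁loc (isLocalAtFin_inv129 hloc)), ?_⟩
    have h1 : Matrix.GeneralLinearGroup.det (d₁ * m₁⁻¹) * Matrix.GeneralLinearGroup.det m₁
        = Matrix.GeneralLinearGroup.det d₁ := by
      rw [← map_mul, inv_mul_cancel_right]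
    generalize Matrix.GeneralLinearGroup.det (d₁ * m₁⁻¹) = u at h1 ⊢
    have h2 : (u : Adl K).2 v * ((Matrix.GeneralLinearGroup.det m₁ : (Adl K)ˣ) : Adl K).2 v
        = ((Matrix.GeneralLinearGroup.det d₁ : (Adl K)ˣ) : Adl K).2 v := by
      rw [← h1, Units.val_mul]
      rfl
    rw [det_finComp333 v m₁, det_finComp333 v d₁, hdetd] at h2
    have h4 := congrArg Valued.v h2
    rw [map_mul, hval, hϖ] at h4
    have h5 : (WithZero.exp (-1 : ℤ) : WithZero (Multiplicative ℤ)) ≠ 0 := WithZero.exp_ne_zero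
    exact mul_right_cancel₀ h5 (h4.trans (one_mul _).symm)
  obtain ⟨κ, hκ, hκdet⟩ := hctx.std.good_norm v hctx.hv _ hu
  refine ⟨m₁ * κ, inTorus_mul333 htor hκ.1, ?_⟩
  rw [map_mul, hκdet, map_mul, map_inv, mul_comm (Matrix.GeneralLinearGroup.det d₁),
    mul_inv_cancel_left]

theorem exists_torus_det_pow333 (D : KData K) (η : (Adl K)ˣ → ℂ) (W : G K → ℂ)
    (v : HeightOneSpectrum (𝓞 K)) (hctx : HCtx D η W v) (hs : IsSplitAt142 D.t D.n v)
    (ϖ : v.adicCompletion K) (hϖ : Valued.v ϖ = WithZero.exp (-1 : ℤ)) (j : ℕ) :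
    ∃ ν : G K, InTorus D.t D.n ν ∧
      Matrix.GeneralLinearGroup.det ν
        = Matrix.GeneralLinearGroup.det (locFin129 v (dgl142 v ϖ (unif_ne_zero129 v hϖ) j)) := by
  obtain ⟨μ, hμ, hμdet⟩ := exists_torus_det333 D η W v hctx hs ϖ hϖ
  induction j with
  | zero =>
    refine ⟨1, inTorus_one333 _ _, ?_⟩
    rw [dgl142_zero333, map_one, map_one, map_one]
  | succ j ih =>
    obtain ⟨ν, hν, hνdet⟩ := ih
    refine ⟨ν * μ, inTorus_mul333 hν hμ, ?_⟩
    rw [dgl142_succ333, map_mul, map_mul, map_mul, hνdet, hμdet]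

/-! ## The leaf -/

/-- **A2.03.8.5.2 PLUS** (`H254.PlusC254`, verbatim). -/
theorem plusC333 : PlusC254 := by
  intro K _ _ D η W v hctx hs ϖ hϖ g' hg' j
  unfold om142
  apply hctx.whit.off
  rintro ⟨M, hM, hdet⟩
  apply hg'
  obtain ⟨ν, hν, hνdet⟩ := exists_torus_det_pow333 D η W v hctx hs ϖ hϖ j
  refine ⟨ν⁻¹ * M, inTorus_mul333 (inTorus_inv333 hν) hM, ?_⟩
  rw [map_mul, map_inv, hνdet, ← hdet, map_mul, inv_mul_cancel_left]

end Fermat.Agent.LT.A2.H333

end
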