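import Fermat.Agent.LT.A2.H54.LocFinSpec

/-!
# Row LT, tower A2, leaf A2.03.1.1.06.16 `LF54.LeafAxUnip` (helper333)

OFF-MAIN.  Proves `LF54.LeafAxUnip` VERBATIM against `LT/A2/H54/LocFinSpec.lean`
(helper54@26071c838, sha256 8ccd9c5c6ed3304a), for every normed field (`axUnip333`).

`d(δ)⁻¹ n(x) = n(x δ) d(δ)⁻¹`, the left rule `BorelOpP.unip` for `n(x δ)`, and
`Q(m⁻¹ ξ) = Q(ξ) / det m` for `m ∈ T(k)`.
-/

set_option autoImplicit false
set_option linter.unnecessarySeqFocus false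

open IsDedekindDomain NumberField MeasureTheory
open scoped Topology

noncomputable section

namespace Fermat.Agent.LT.A2.H333

open Fermat.Agent.LT.A2 Fermat.Agent.LT.A2.WX467 Fermat.Agent.LT.A2.LF54

section Gen

variable {k : Type} [NormedField k]

/-- `d(δ⁻¹) n(x) = n(x δ) d(δ⁻¹)`. -/
theorem diag_unip333 (x δ : k) (hδ : δ ≠ 0) :
    (!![1, 0; 0, δ⁻¹] : Matrix (Fin 2) (Fin 2) k) * !![1, x; 0, 1]
      = !![1, x * δ; 0, 1] * !![1, 0; 0, δ⁻¹] := by
  rw [Matrix.mul_fin_two, Matrix.mul_fin_two]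
  ext i j
  fin_cases i <;> fin_cases j <;> simp <;> field_simp

/-- `Q(m⁻¹ ξ) = Q(ξ) / det m` for `m ∈ T(k)`. -/
theorem qfL_inv333 (t n a b : k) (hdet : (torMat t n a b).det ≠ 0) (ξ : k × k) :
    qfL t n (actL (torMat t n a b)⁻¹ ξ) = qfL t n ξ / (torMat t n a b).det := by
  have hd : (torMat t n a b).det = a * (a + t * b) + n * b * b := by
    unfold torMat
    rw [Matrix.det_fin_two_of]
    ring
  have hne : a * (a + t * b) + n * b * b ≠ 0 := by rwa [hd] at hdet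
  have hinv : (torMat t n a b)⁻¹
      = (a * (a + t * b) + n * b * b)⁻¹ • !![a + t * b, n * b; -b, a] := by
    rw [Matrix.inv_def, hd, Ring.inverse_eq_inv']
    congr 1
    unfold torMat
    rw [Matrix.adjugate_fin_two_of]
    simp
  rw [hinv, hd]
  have hQ : qfL t n ((a + t * b) * ξ.1 + n * b * ξ.2, -b * ξ.1 + a * ξ.2)
      = (a * (a + t * b) + n * b * b) * qfL t n ξ := by
    unfold qfL
    ring
  have hact : actL ((a * (a + t * b) + n * b * b)⁻¹ • !![a + t * b, n * b; -b, a]) ξ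
      = ((a * (a + t * b) + n * b * b)⁻¹ * ((a + t * b) * ξ.1 + n * b * ξ.2),
          (a * (a + t * b) + n * b * b)⁻¹ * (-b * ξ.1 + a * ξ.2)) := by
    unfold actL
    simp only [Matrix.smul_apply, Matrix.of_apply, Matrix.cons_val', Matrix.cons_val_zero,
      Matrix.cons_val_one, Matrix.cons_val_fin_one, smul_eq_mul]
    ext <;> simp <;> ring
  have hsc : ∀ c u w : k, qfL t n (c * u, c * w) = c ^ 2 * qfL t n (u, w) := by
    intro c u w
    unfold qfL
    ring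
  rw [hact, hsc, hQ, div_eq_mul_inv]
  have hc : (a * (a + t * b) + n * b * b)⁻¹ * (a * (a + t * b) + n * b * b) = 1 :=
    inv_mul_cancel₀ hne
  calc ((a * (a + t * b) + n * b * b)⁻¹) ^ 2 * ((a * (a + t * b) + n * b * b) * qfL t n ξ)
      = ((a * (a + t * b) + n * b * b)⁻¹ * (a * (a + t * b) + n * b * b))
          * (qfL t n ξ * (a * (a + t * b) + n * b * b)⁻¹) := by ring
    _ = qfL t n ξ * (a * (a + t * b) + n * b * b)⁻¹ := by rw [hc, one_mul]

/-- **AX-UNIP** over any normed field. -/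
theorem axUnip333 (t n : k) (ψ : k → ℂ) (μ : @Measure k (borel k)) (γ : ℂ) (η : k → ℂ)
    (hB : BorelOpP t n ψ μ γ η) (Φ : k × k → ℂ) (hΦ : IsSB Φ) :
    AxUnipP t n ψ (Fof t n ψ μ γ η Φ) := by
  intro x g m ξ hadm
  obtain ⟨⟨a, b, hm⟩, hgm, hne⟩ := hadm
  unfold Fof lopL
  have h1 : (!![1, 0; 0, (m.det)⁻¹] : Matrix (Fin 2) (Fin 2) k) * (!![1, x; 0, 1] * g)
      = !![1, x * m.det; 0, 1] * (!![1, 0; 0, (m.det)⁻¹] * g) := by
    rw [← mul_assoc, diag_unip333 x m.det hne, mul_assoc]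
  have h2 : ((!![1, 0; 0, (m.det)⁻¹] : Matrix (Fin 2) (Fin 2) k) * g).det = 1 := by
    rw [Matrix.det_mul, Matrix.det_fin_two_of, hgm, one_mul, mul_zero, sub_zero,
      inv_mul_cancel₀ hne]
  rw [h1, hB.unip (x * m.det) _ h2 Φ hΦ]
  have h3 : qfL t n (actL m⁻¹ ξ) = qfL t n ξ / m.det := by
    rw [hm] at hne ⊢
    exact qfL_inv333 t n a b hne ξ
  rw [h3]
  have h4 : x * m.det * (qfL t n ξ / m.det) = x * qfL t n ξ := by
    field_simp
  rw [h4]
  ring

end Gen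

/-- **A2.03.1.1.06.16 AX-UNIP** (`LF54.LeafAxUnip`, verbatim). -/
theorem leafAxUnip333 : LeafAxUnip := by
  intro K _ _ v t n ψ μ γ η _ hB Φ hΦ
  exact axUnip333 t n ψ μ γ η hB Φ hΦ

end Fermat.Agent.LT.A2.H333

end
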